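import Mathlib

/-!
# Row LT, tower T7, leaf `PRTransC57` (owner helper389) -- the abstract core (Mathlib only)

Right translation of the left Haar measure `|y|⁻¹ dx dy dz` of the Borel group in the coordinates
`(x, y, z)`: for `p₀ = (x₀, y₀, z₀)`,
`∫ f (x + c y, y y₀, z z₀) |y|⁻¹ = |y₀| ∫ f (x, y, z) |y|⁻¹`.
-/

set_option autoImplicit false

open MeasureTheory
open scoped ENNReal

namespace Fermat.Agent.LT.T7.H389

/-- **Abstract right translation.** -/
theorem prtrans_abs389 {A X : Type*} [AddCommGroup A] [MeasurableSpace A] [MeasurableAdd₂ A]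
    [CommGroup X] [MeasurableSpace X] [MeasurableMul₂ X]
    (ν : Measure A) [SFinite ν] [ν.IsAddRightInvariant]
    (τ : Measure X) [SFinite τ] [τ.IsMulRightInvariant]
    (N : X → ℝ) (hNpos : ∀ y, 0 < N y) (hNmul : ∀ y y', N (y * y') = N y * N y')
    (hNmeas : Measurable N) (c : X → A) (hc : Measurable c)
    (f : A × X × X → ℝ≥0∞) (hf : Measurable f) (y₀ z₀ : X) :
    ∫⁻ p, f (p.1 + c p.2.1, p.2.1 * y₀, p.2.2 * z₀) * ENNReal.ofReal ((N p.2.1)⁻¹)
        ∂(ν.prod (τ.prod τ))
      = ENNReal.ofReal (N y₀)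
          * ∫⁻ p, f p * ENNReal.ofReal ((N p.2.1)⁻¹) ∂(ν.prod (τ.prod τ)) := by
  -- the weight
  set w : X → ℝ≥0∞ := fun y => ENNReal.ofReal ((N y)⁻¹) with hw
  have hwm : Measurable w := (hNmeas.inv).ennreal_ofReal
  -- partial integrals
  set F : X × X → ℝ≥0∞ := fun q => ∫⁻ x, f (x, q) ∂ν with hF
  have hFm : Measurable F := hf.lintegral_prod_left'
  set H : X → ℝ≥0∞ := fun y => ∫⁻ z, F (y, z) ∂τ with hH
  have hHm : Measurable H := hFm.lintegral_prod_right'
  -- the right-hand side
  have hR : ∫⁻ p, f p * ENNReal.ofReal ((N p.2.1)⁻¹) ∂(ν.prod (τ.prod τ))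
      = ∫⁻ y, H y * w y ∂τ := by
    have hm : Measurable fun p : A × X × X => f p * w p.2.1 :=
      hf.mul (hwm.comp (measurable_fst.comp measurable_snd))
    rw [lintegral_prod_symm' _ hm]
    have h1 : ∀ q : X × X, ∫⁻ x, f (x, q) * w q.1 ∂ν = F q * w q.1 := by
      intro q
      have hfq : Measurable fun x : A => f (x, q) :=
        hf.comp (measurable_id.prodMk measurable_const)
      exact lintegral_mul_const _ hfq
    simp only [h1]
    have hm2 : Measurable fun q : X × X => F q * w q.1 := hFm.mul (hwm.comp measurable_fst)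
    rw [lintegral_prod _ hm2.aemeasurable]
    refine lintegral_congr fun y => ?_
    have hFy : Measurable fun z : X => F (y, z) :=
      hFm.comp (measurable_const.prodMk measurable_id)
    show ∫⁻ z, F (y, z) * w y ∂τ = H y * w y
    exact lintegral_mul_const _ hFy
  -- the left-hand side
  have hL : ∫⁻ p, f (p.1 + c p.2.1, p.2.1 * y₀, p.2.2 * z₀) * ENNReal.ofReal ((N p.2.1)⁻¹)
        ∂(ν.prod (τ.prod τ))
      = ∫⁻ y, H (y * y₀) * w y ∂τ := by
    have hmap : Measurable fun p : A × X × X => (p.1 + c p.2.1, p.2.1 * y₀, p.2.2 * z₀) := by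
      refine Measurable.prodMk ?_ (Measurable.prodMk ?_ ?_)
      · exact measurable_fst.add (hc.comp (measurable_fst.comp measurable_snd))
      · exact (measurable_fst.comp measurable_snd).mul measurable_const
      · exact (measurable_snd.comp measurable_snd).mul measurable_const
    have hm : Measurable fun p : A × X × X =>
        f (p.1 + c p.2.1, p.2.1 * y₀, p.2.2 * z₀) * w p.2.1 :=
      (hf.comp hmap).mul (hwm.comp (measurable_fst.comp measurable_snd))
    rw [lintegral_prod_symm' _ hm]
    have h1 : ∀ q : X × X,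
        ∫⁻ x, f (x + c q.1, q.1 * y₀, q.2 * z₀) * w q.1 ∂ν = F (q.1 * y₀, q.2 * z₀) * w q.1 := by
      intro q
      have hfq : Measurable fun x : A => f (x, q.1 * y₀, q.2 * z₀) :=
        hf.comp (measurable_id.prodMk measurable_const)
      have hfq' : Measurable fun x : A => f (x + c q.1, q.1 * y₀, q.2 * z₀) :=
        hfq.comp (measurable_id.add measurable_const)
      rw [lintegral_mul_const _ hfq']
      congr 1
      exact lintegral_add_right_eq_self (fun x => f (x, q.1 * y₀, q.2 * z₀)) (c q.1)
    simp only [h1]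
    have hm2 : Measurable fun q : X × X => F (q.1 * y₀, q.2 * z₀) * w q.1 := by
      refine (hFm.comp ?_).mul (hwm.comp measurable_fst)
      exact (measurable_fst.mul measurable_const).prodMk (measurable_snd.mul measurable_const)
    rw [lintegral_prod _ hm2.aemeasurable]
    refine lintegral_congr fun y => ?_
    have hFy : Measurable fun z : X => F (y * y₀, z) :=
      hFm.comp (measurable_const.prodMk measurable_id)
    have hFy' : Measurable fun z : X => F (y * y₀, z * z₀) :=
      hFy.comp (measurable_id.mul measurable_const)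
    show ∫⁻ z, F (y * y₀, z * z₀) * w y ∂τ = H (y * y₀) * w y
    rw [lintegral_mul_const _ hFy']
    congr 1
    exact lintegral_mul_right_eq_self (fun z => F (y * y₀, z)) z₀
  rw [hL, hR]
  -- the weight: `w y = N y₀ * w (y y₀)`
  have hwy : ∀ y, w y = ENNReal.ofReal (N y₀) * w (y * y₀) := by
    intro y
    simp only [hw]
    rw [← ENNReal.ofReal_mul (hNpos y₀).le, hNmul]
    congr 1
    have h1 := (hNpos y).ne'
    have h2 := (hNpos y₀).ne'
    field_simp
  calc ∫⁻ y, H (y * y₀) * w y ∂τ
      = ∫⁻ y, ENNReal.ofReal (N y₀) * (H (y * y₀) * w (y * y₀)) ∂τ := by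
        refine lintegral_congr fun y => ?_
        rw [hwy y]; ring
    _ = ENNReal.ofReal (N y₀) * ∫⁻ y, H (y * y₀) * w (y * y₀) ∂τ := by
        rw [lintegral_const_mul]
        exact ((hHm.mul hwm).comp (measurable_id.mul measurable_const))
    _ = ENNReal.ofReal (N y₀) * ∫⁻ y, H y * w y ∂τ := by
        congr 1
        exact lintegral_mul_right_eq_self (fun y => H y * w y) y₀

end Fermat.Agent.LT.T7.H389
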