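import Mathlib
import Fermat.Agent.LT.T7.H57.FoldSpec5
import Fermat.Agent.LT.T7.H389.PRTransAbs

/-!
# Row LT, tower T7, LEAF T7.14.6a-F.16 `PRTransC57` (registry 2214, owner helper389)

OFF-MAIN.  `pRTransC389 : T1.AdNormC K → T1.LocCompC K → H57.PRTransC57 K`, VERBATIM against
`Fermat/Agent/LT/T7/H57/FoldSpec5.lean` (helper57@6a1f79c59, sha256 8a9bba37).

Proof: Tonelli on `𝔸 × 𝔸ˣ × 𝔸ˣ`, translation invariance of `ν` in `x` for fixed `y`, invariance of
`τ` in `z` and `y` (the idele group is commutative), `|y y₀| = |y| |y₀|`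
(abstract core: `PRTransAbs.lean`, Mathlib only).
-/

set_option autoImplicit false
set_option linter.style.haveILetI false

open AutomorphicForm IsDedekindDomain NumberField Filter Topology MeasureTheory
open scoped ENNReal

noncomputable section

namespace Fermat.Agent.LT.T7.H389

open Fermat.Agent.LT.H556 Fermat.Agent.LT.H556.A0 Fermat.Agent.LT.T7 Fermat.Agent.LT.T7.H57

variable (K : Type) [Field K] [NumberField K]

/-- **LEAF P-RTRANS** (registry 2214). -/
theorem pRTransC389 (hN : Fermat.Agent.LT.T1.AdNormC K) (hL : Fermat.Agent.LT.T1.LocCompC K) :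
    PRTransC57 K := by
  obtain ⟨hpos, hmul, -, hcont⟩ := hN
  obtain ⟨⟨hlc, ht2, hsc⟩, -⟩ := hL
  haveI : LocallyCompactSpace (Adl K) := hlc
  haveI : T2Space (Adl K) := ht2
  haveI : SecondCountableTopology (Adl K) := hsc
  unfold PRTransC57
  letI : MeasurableSpace (Adl K) := borel (Adl K)
  letI : MeasurableSpace (Adl K)ˣ := borel (Adl K)ˣ
  haveI : BorelSpace (Adl K) := ⟨rfl⟩
  haveI : BorelSpace (Adl K)ˣ := ⟨rfl⟩
  haveI : SecondCountableTopology (Adl K)ᵐᵒᵖ :=
    (MulOpposite.opHomeomorph (M := Adl K)).symm.secondCountableTopology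
  haveI : SecondCountableTopology (Adl K)ˣ :=
    Units.isEmbedding_embedProduct.secondCountableTopology
  intro ν hν τ hτ f hf p₀
  have hNpos : ∀ y : (Adl K)ˣ, 0 < nrm57 K y := fun y => hpos y
  have hNmul : ∀ y y' : (Adl K)ˣ, nrm57 K (y * y') = nrm57 K y * nrm57 K y' :=
    fun y y' => hmul y y'
  have hNmeas : Measurable fun y : (Adl K)ˣ => nrm57 K y := by
    have h : Continuous fun y : (Adl K)ˣ => nrm57 K y := hcont
    exact h.measurable
  have hc : Measurable fun y : (Adl K)ˣ => (y : Adl K) * p₀.1 :=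
    (Units.continuous_val.mul continuous_const).measurable
  have key := prtrans_abs389 ν τ (fun y : (Adl K)ˣ => nrm57 K y) hNpos hNmul hNmeas
    (fun y : (Adl K)ˣ => (y : Adl K) * p₀.1) hc f hf p₀.2.1 p₀.2.2
  exact key

end Fermat.Agent.LT.T7.H389

end
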