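import Mathlib
import Fermat.Agent.LT.T7.H776.WBasisSpec

/-!
# Row LT, tower T7, leaf T7.L2.3.5.4.C2 = `WB776.WAsmC776` (helper389): PROVED

OFF-MAIN.  Every proof is complete, nothing assumed.  ADDITIVE (new names only, all ending in
`389`).  Spec: `T7/H776/WBasisSpec.lean` of helper776 (sha256 ebd5d61eb0d68155), byte-identical
copy; imports only the closure of the spec.

    wAsmC389 (K) : WB776.WAsmC776 K
      = W0BasisC776 K → IwAvgC776 K → ProjSeqC776 → CuspFormC K → WSubC K → WBasisC K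

The plug of the docstring: `ProjSeqC776` for `M = G K → ℂ`, `form = T5.innerD μ F`,
`Vm` = the cusp functions, `Wm` = the invariant cusp functions, `A = EigData K`, `u = w₀`,
`cl = c₀`, `P`; the new sequence `w`, `J ⊆ J₀`, `c = c₀`.
-/

set_option autoImplicit false

open AutomorphicForm IsDedekindDomain NumberField MeasureTheory
open scoped ComplexConjugate

noncomputable section

namespace Fermat.Agent.LT.T7.H389

open Fermat.Agent.LT Fermat.Agent.LT.H556 Fermat.Agent.LT.H556.A0 Fermat.Agent.LT.T7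
open Fermat.Agent.LT.T7.SD534 Fermat.Agent.LT.T7.H193 Fermat.Agent.LT.T7.WB776

attribute [local instance] Fermat.Agent.LT.T5.instMeasurableSpaceG

variable {K : Type} [Field K] [NumberField K]

/-- The cusp functions as a submodule. -/
def vSub389 {𝔫 : Ideal (𝓞 K)} {r : G K} {u : HeightOneSpectrum (𝓞 K)} (h : IsWSub 𝔫 r u) :
    Submodule ℂ (G K → ℂ) where
  carrier := {f | InV 𝔫 r f}
  add_mem' := fun {f f'} hf hf' => h.addV f f' hf hf'
  zero_mem' := h.zeroW.inV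
  smul_mem' := fun a f hf => h.smulV a f hf

/-- The invariant cusp functions as a submodule. -/
def wSub389 {𝔫 : Ideal (𝓞 K)} {r : G K} {u : HeightOneSpectrum (𝓞 K)} (h : IsWSub 𝔫 r u) :
    Submodule ℂ (G K → ℂ) where
  carrier := {f | InW 𝔫 r u f}
  add_mem' := fun {f f'} hf hf' => h.addW f f' hf hf'
  zero_mem' := h.zeroW
  smul_mem' := fun a f hf => h.smulW a f hf

theorem mem_vSub389 {𝔫 : Ideal (𝓞 K)} {r : G K} {u : HeightOneSpectrum (𝓞 K)}
    (h : IsWSub 𝔫 r u) (f : G K → ℂ) : f ∈ vSub389 h ↔ InV 𝔫 r f := Iff.rfl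

theorem mem_wSub389 {𝔫 : Ideal (𝓞 K)} {r : G K} {u : HeightOneSpectrum (𝓞 K)}
    (h : IsWSub 𝔫 r u) (f : G K → ℂ) : f ∈ wSub389 h ↔ InW 𝔫 r u f := Iff.rfl

/-- A member of the span of members of a class is a member of the class (the class is not
empty). -/
theorem inCls_of_span389 {𝔫 : Ideal (𝓞 K)} {r : G K} {u : HeightOneSpectrum (𝓞 K)}
    (h : IsWSub 𝔫 r u) (c : EigData K) (S : Set (G K → ℂ))
    (hS : ∀ f ∈ S, InCls 𝔫 r u c f) {f₀ : G K → ℂ} (h₀ : InCls 𝔫 r u c f₀)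
    {x : G K → ℂ} (hx : x ∈ Submodule.span ℂ S) : InCls 𝔫 r u c x := by
  induction hx using Submodule.span_induction with
  | mem y hy => exact hS y hy
  | zero =>
    have h1 := h.smulC c 0 f₀ h₀
    rw [zero_smul] at h1
    exact h1
  | add y z _ _ hy hz => exact h.addC c y z hy hz
  | smul a y _ hy => exact h.smulC c a y hy

variable (K)

/-- **LEAF T7.L2.3.5.4.C2 = W-ASM** (statement of helper776, `T7/H776/WBasisSpec.lean`). -/
theorem wAsmC389 : WAsmC776 K := by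
  intro hW0 hIw hPS hForm hSub μ F r 𝔫 u h𝔫 hF hr _ hcplx
  obtain ⟨w₀, J₀, c₀, hB⟩ := hW0 μ F r 𝔫 u h𝔫 hF hr hcplx
  obtain ⟨P, hP⟩ := hIw μ F r 𝔫 u h𝔫 hF hr
  have hfm : IsCuspForm μ F r 𝔫 := hForm μ F r 𝔫 h𝔫 hF hr
  have hs : IsWSub 𝔫 r u := hSub 𝔫 r u
  -- the members of the old basis
  have hu0 : ∀ j ∈ J₀, IsWFn 𝔫 r 0 (fun _ => u) (w₀ j) := fun j hj => (hB.eig j hj).inv
  have huV : ∀ j ∈ J₀, InV 𝔫 r (w₀ j) := fun j hj => (hu0 j hj).cusp
  have hPc : ∀ j ∈ J₀, InCls 𝔫 r u (c₀ j) (P (w₀ j)) := fun j hj =>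
    hP.eig (w₀ j) (c₀ j) (hB.eig j hj)
  obtain ⟨w, J, hJ, hspan, hnorm, horth, hpars, hexh⟩ :=
    hPS (G K → ℂ) (T5.innerD μ F) (vSub389 hs) (wSub389 hs) (EigData K) w₀ J₀ c₀ P
      (fun f hf => InW.inV hf)
      (fun x hx y hy z hz => hfm.add_left x y z hx hy hz)
      (fun a x hx y hy => hfm.smul_left a x y hx hy)
      (fun x hx y hy => hfm.conj_symm x y hx hy)
      (fun x hx => hfm.nonneg x hx)
      (fun x hx h0 => hfm.definite x hx h0)
      huV
      (fun j hj => hB.norm_one j hj)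
      (fun i hi j hj hij => hB.orth i hi j hj hij)
      (fun χ hχ => hB.parseval χ (isWFn_zero_of776 hχ))
      (fun j₀ hj₀ => hB.finite j₀ hj₀)
      (fun j hj => (hPc j hj).inW)
      (fun j hj => hB.exhaust j hj (P (w₀ j)) (isEigFn_zero_of776 (hPc j hj)))
      (fun χ hχ => hP.fix χ hχ)
      (fun χ hχ j hj => hP.inner χ (w₀ j) hχ (hu0 j hj))
  refine ⟨w, J, c₀, ?_⟩
  have heig : ∀ j, j ∈ J → InCls 𝔫 r u (c₀ j) (w j) := by
    intro j hj
    refine inCls_of_span389 hs (c₀ j) _ ?_ (hPc j (hJ hj)) (hspan j hj)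
    rintro f ⟨i, hi, hci, rfl⟩
    have h1 := hPc i hi
    rw [hci] at h1
    exact h1
  refine ⟨heig, fun j hj => hB.unit j (hJ hj), hnorm, horth, fun χ hχ => hpars χ hχ, ?_, ?_⟩
  · intro j₀ hj₀
    exact (hB.finite j₀ (hJ hj₀)).subset (fun j hj => ⟨hJ hj.1, hj.2⟩)
  · intro j₀ hj₀ ψ hψ
    exact hexh j₀ (hJ hj₀) ψ hψ.inW
      (hB.exhaust j₀ (hJ hj₀) ψ (isEigFn_zero_of776 hψ))

end Fermat.Agent.LT.T7.H389

end
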