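import Mathlib
import Fermat.Agent.LT.T7.H561.BlocksSpec
import Fermat.Agent.LT.T7.H930.RsigL2

/-!
# Row LT, tower T7, leaf T7.L2.2.B3 = `SigmaC561` (helper389): PROVED

OFF-MAIN.  Every proof is complete, nothing assumed.  ADDITIVE (new names only, all ending in
`389`).  Spec: `T7/H561/BlocksSpec.lean` of helper561 (sha256 5ceeaa4d32439a1f), byte-identical
copy.  Assets: helper930 `T7/H930/RsigL2.lean`, `T7/H930/RsigOps.lean` (byte-identical copies of
origin/helper930@3635087a8).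

    sigmaC389 (K K') : H561.SigmaC561 K K'        (UNCONDITIONAL)

`σC = eigMove930 Dt.s` (`C ↦ C ∘ σ⁻¹`).  The hypothesis `BaseStable561 Dt` replaces the field
`level` of `T5.AutPreserves` for the level `𝔑_1` (`IsCompData.aut` for the bad element `1`; no
other field depends on the level), and the set of the prime divisors of `𝔑₀` is `σ`-stable
because it is the set of the prime divisors of the extended ideal `𝔑_1` (`mem_S'`, `mem_S'_g`).
-/

set_option autoImplicit false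

open AutomorphicForm IsDedekindDomain NumberField MeasureTheory
open scoped MatrixGroups ComplexConjugate

noncomputable section

namespace Fermat.Agent.LT.T7.H389

open Fermat.Agent.LT.H556 Fermat.Agent.LT.H556.A0 Fermat.Agent.LT.T1.H930
open Fermat.Agent.LT.T7 Fermat.Agent.LT.T7.H930 Fermat.Agent.LT.T7.H561 Fermat.Agent.LT.T5

attribute [local instance] Fermat.Agent.LT.T5.instMeasurableSpaceG

variable {K K' : Type} [Field K] [NumberField K] [Field K'] [NumberField K'] [Algebra K K']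
variable {ℓ : ℕ} {Φ : HeckeEigensystem K' ℂ} {Dt : L2Data K K'}

/-- `σ` preserves the frame at the base level: `IsCompData.aut` for the bad element `1`, the
field `level` replaced by `BaseStable561`. -/
theorem baseAut389 (h : IsL2Data ℓ Φ Dt) (hst : BaseStable561 Dt) :
    AutPreserves Dt.s Dt.𝔑₀ Dt.R'.μ Dt.R'.r := by
  have hP : AutPreserves Dt.s (Dt.comp 1).𝔑 Dt.R'.μ Dt.R'.r := (l2_compData930 h).aut
  exact ⟨hP.left_inverse, hP.right_inverse, hP.rat, hP.cont, hP.measure, hP.ray, hP.slab, hst,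
    hP.arch⟩

/-- The set `S'` is `σ`-stable: it is the set of the prime divisors of the extended ideal
`𝔑_1`. -/
theorem mem_S'_pull389 (h : IsL2Data ℓ Φ Dt) (w : HeightOneSpectrum (𝓞 K')) :
    finPull930 Dt.s.σ w ∈ Dt.S' ↔ w ∈ Dt.S' := by
  rw [h.mem_S'_g 1 (isBad_one930 Dt), h.mem_S'_g 1 (isBad_one930 Dt)]
  exact dvd_finPull930_iff Dt.s
    (map_level_stable_of_fixes930 Dt.s.σ (l2_fixes930 h) (Dt.𝔫 1)) w

/-- The set of the prime divisors of the base level is `σ`-stable. -/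
theorem dvd_base_pull389 (h : IsL2Data ℓ Φ Dt) (v : HeightOneSpectrum (𝓞 K')) :
    (finPull930 Dt.s.σ v).asIdeal ∣ Dt.𝔑₀ ↔ v.asIdeal ∣ Dt.𝔑₀ := by
  rw [← h.mem_S', ← h.mem_S']
  exact mem_S'_pull389 h v

/-- **`R(σ)` preserves the invariant cusp functions of the base level.** -/
theorem isWFn_Rsig389 (h : IsL2Data ℓ Φ Dt) (hst : BaseStable561 Dt) {ψ : G K' → ℂ}
    (hψ : IsWFn Dt.𝔑₀ Dt.R'.r ℓ Dt.o ψ) : IsWFn Dt.𝔑₀ Dt.R'.r ℓ Dt.o (Rsig Dt.s ψ) :=
  isWFn_Rsig930 (baseAut389 h hst) ℓ Dt.o (l2_orbit_img930 h) (l2_orbit_pull930 h) hψ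

/-- **`R(σ)` moves the eigen-data of the eigenfunctions of the base level.** -/
theorem isEigFn_Rsig389 (h : IsL2Data ℓ Φ Dt) (hst : BaseStable561 Dt) {ψ : G K' → ℂ}
    {C : EigData K'} (hψ : IsEigFn Dt.𝔑₀ Dt.R'.r ℓ Dt.o ψ C) :
    IsEigFn Dt.𝔑₀ Dt.R'.r ℓ Dt.o (Rsig Dt.s ψ) (eigMove930 Dt.s C) where
  inv := isWFn_Rsig389 h hst hψ.inv
  hecke v hv :=
    (isHeckeEigenAt_Rsig930 Dt.s (placeRel_finPull_self930 Dt.s v) ψ _ _).2
      (hψ.hecke _ (fun hd => hv ((dvd_base_pull389 h v).1 hd)))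
  mean w := by
    have hinv : ∀ k : G K', IsArchCompact (infPull930 Dt.s.σ w) k →
        ∀ g : G K', ψ (g * k) = ψ g := by
      intro k hk g
      have := hψ.inv.cusp.aut.arch_compact _ k hk g
      rw [this]
      exact one_mul _
    have h1 := (meanEigC_Rsig930 Dt.s (infPull930 Dt.s.σ w) ψ hinv
      (C.m (infPull930 Dt.s.σ w))).2
      ((meanEig_iff930 _ _ _).1 (hψ.mean (infPull930 Dt.s.σ w)))
    rw [infImg930_pull] at h1
    exact (meanEig_iff930 _ _ _).2 h1

/-- The move of the eigen-data is compatible with the agreement outside `S'`. -/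
theorem agreeOut_move389 (h : IsL2Data ℓ Φ Dt) {C C' : EigData K'}
    (hC : C.AgreeOut Dt.S' C') : (eigMove930 Dt.s C).AgreeOut Dt.S' (eigMove930 Dt.s C') :=
  ⟨fun w hw => hC.1 (finPull930 Dt.s.σ w) (fun hm => hw ((mem_S'_pull389 h w).1 hm)),
    fun w d hd => hC.2 (infPull930 Dt.s.σ w) d hd⟩

/-- **The class of `Φ` is `σ`-stable.** -/
theorem agreeOut_phi389 (h : IsL2Data ℓ Φ Dt) :
    (eigMove930 Dt.s (eigOf Φ)).AgreeOut Dt.S' (eigOf Φ) := by
  refine ⟨fun w hw => ?_, fun w d _ => rfl⟩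
  have hw' : finPull930 Dt.s.σ w ∉ Dt.S' := fun hm => hw ((mem_S'_pull389 h w).1 hm)
  obtain ⟨v, hv⟩ := exists_placeUnder930 (K := K) w
  exact h.const (finPull930 Dt.s.σ w) hw' w hw v
    (placeOver_finPull930 Dt.s.σ (l2_fixes930 h) v w hv) hv

variable (K K')

/-- **LEAF T7.L2.2.B3 = SIGMA** (statement of helper561, `T7/H561/BlocksSpec.lean`). -/
theorem sigmaC389 : SigmaC561 K K' := by
  intro ℓ _ _ _ Φ _ _ Dt hDt hst
  exact ⟨eigMove930 Dt.s, fun _ _ hC => agreeOut_move389 hDt hC,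
    fun _ _ hψ => isEigFn_Rsig389 hDt hst hψ, agreeOut_phi389 hDt⟩

end Fermat.Agent.LT.T7.H389

end
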